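import Mathlib.RingTheory.Valuation.Basic
import Mathlib.Data.Rat.Lemmas
import Mathlib.Algebra.Order.Ring.Int
import Mathlib.Tactic

/-!
# Valuations of rational numbers at a place over `2` (S13, piece T7, part A)

`K` a field of characteristic zero, `v` a valuation on `K` with `v 2 < 1`.  We record the
elementary facts about `v (r : K)` for rational `r` that the `2`-adic argument of T7 needs.
-/

set_option autoImplicit false

namespace Fermat.Agent.S13.H673

variable {K : Type*} [Field K] {Γ₀ : Type*} [LinearOrderedCommGroupWithZero Γ₀]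
  (v : Valuation K Γ₀)

lemma val_natCast_le_one' (n : ℕ) : v (n : K) ≤ 1 := by
  induction n with
  | zero => simp
  | succ n ih =>
    push_cast
    exact (v.map_add _ _).trans (max_le ih (by simp))

lemma val_intCast_le_one' (n : ℤ) : v (n : K) ≤ 1 := by
  obtain ⟨m, rfl | rfl⟩ := Int.eq_nat_or_neg n
  · rw [Int.cast_natCast]; exact val_natCast_le_one' v m
  · rw [Int.cast_neg, Int.cast_natCast, Valuation.map_neg]; exact val_natCast_le_one' v m

variable {v}

lemma val_even_lt_one (hv2 : v (2 : K) < 1) {n : ℤ} (hn : Even n) : v (n : K) < 1 := by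
  obtain ⟨k, rfl⟩ := hn
  have : ((k + k : ℤ) : K) = 2 * (k : K) := by push_cast; ring
  rw [this, map_mul]
  exact (mul_le_of_le_one_right' (val_intCast_le_one' v k)).trans_lt hv2

lemma val_odd_eq_one (hv2 : v (2 : K) < 1) {n : ℤ} (hn : Odd n) : v (n : K) = 1 := by
  obtain ⟨k, rfl⟩ := hn
  have h1 : v ((2 * k : ℤ) : K) < 1 := val_even_lt_one hv2 (even_two_mul k)
  have : ((2 * k + 1 : ℤ) : K) = 1 + ((2 * k : ℤ) : K) := by push_cast; ring
  rw [this, v.map_add_eq_of_lt_left (by rw [map_one]; exact h1), map_one]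

lemma val_two_pow_mul_odd (hv2 : v (2 : K) < 1) (c : ℕ) {m : ℤ} (hm : Odd m) :
    v ((2 ^ c * m : ℤ) : K) = v (2 : K) ^ c := by
  push_cast
  rw [map_mul, map_pow, val_odd_eq_one hv2 hm, mul_one]

/-- A nonzero integer is a power of two times an odd integer. -/
lemma int_eq_two_pow_mul_odd {n : ℤ} (hn : n ≠ 0) : ∃ (c : ℕ) (m : ℤ), Odd m ∧ n = 2 ^ c * m := by
  obtain ⟨c, m, hm, h⟩ := Nat.exists_eq_two_pow_mul_odd (Int.natAbs_ne_zero.mpr hn)
  rcases Int.natAbs_eq n with h' | h'
  · refine ⟨c, (m : ℤ), by exact_mod_cast hm, ?_⟩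
    rw [h', h]; push_cast; ring
  · refine ⟨c, -(m : ℤ), Odd.neg (by exact_mod_cast hm), ?_⟩
    rw [h', h]; push_cast; ring

variable [CharZero K]

lemma ratCast_eq_div (r : ℚ) : (r : K) = (r.num : K) / (r.den : K) := by
  conv_lhs => rw [← Rat.num_div_den r]
  push_cast
  rfl

lemma den_cast_ne_zero (r : ℚ) : ((r.den : ℤ) : K) ≠ 0 := by
  have := r.den_pos
  exact_mod_cast this.ne'

/-- A `v`-integral rational number has odd denominator. -/
lemma rat_den_odd (hv2 : v (2 : K) < 1) {r : ℚ} (h : v (r : K) ≤ 1) : Odd (r.den : ℤ) := by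
  by_contra hodd
  rw [Int.not_odd_iff_even] at hodd
  have hnum : Odd r.num := by
    by_contra hn
    rw [Int.not_odd_iff_even] at hn
    have hcop := Rat.isCoprime_num_den r
    obtain ⟨a, b, hab⟩ := hcop
    have : Even (a * r.num + b * (r.den : ℤ)) := (hn.mul_left a).add (hodd.mul_left b)
    rw [hab] at this
    exact Int.not_even_one this
  have h1 : v ((r.num : ℤ) : K) = 1 := val_odd_eq_one hv2 hnum
  have h2 : v (((r.den : ℤ)) : K) < 1 := val_even_lt_one hv2 hodd
  have hd0 : v (((r.den : ℤ)) : K) ≠ 0 := (Valuation.ne_zero_iff v).2 (den_cast_ne_zero r)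
  have hr : v (r : K) = (v (((r.den : ℤ)) : K))⁻¹ := by
    rw [ratCast_eq_div, map_div₀, h1, one_div]
    norm_cast
  rw [hr] at h
  have : 1 < (v (((r.den : ℤ)) : K))⁻¹ := (one_lt_inv₀ (zero_lt_iff.mpr hd0)).mpr h2
  exact absurd h (not_le.mpr this)

lemma val_rat_eq_val_num (hv2 : v (2 : K) < 1) {r : ℚ} (h : v (r : K) ≤ 1) :
    v (r : K) = v ((r.num : ℤ) : K) := by
  have hd := val_odd_eq_one hv2 (rat_den_odd hv2 h)
  rw [ratCast_eq_div, map_div₀]
  have : v ((r.den : ℕ) : K) = 1 := by exact_mod_cast hd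
  rw [this, div_one]

/-- A rational `v`-unit is congruent to `1`. -/
lemma val_rat_sub_one_lt (hv2 : v (2 : K) < 1) {r : ℚ} (h : v (r : K) = 1) :
    v ((r : K) - 1) < 1 := by
  have hden := rat_den_odd hv2 h.le
  have hd := val_odd_eq_one hv2 hden
  have hnum : Odd r.num := by
    by_contra hn
    rw [Int.not_odd_iff_even] at hn
    have := val_even_lt_one (v := v) hv2 hn
    rw [← val_rat_eq_val_num hv2 h.le, h] at this
    exact lt_irrefl _ this
  have hev : Even (r.num - (r.den : ℤ)) := hnum.sub_odd hden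
  have hkey : (r : K) - 1 = ((r.num - (r.den : ℤ) : ℤ) : K) / ((r.den : ℤ) : K) := by
    rw [ratCast_eq_div]
    have := den_cast_ne_zero (K := K) r
    field_simp
    push_cast
    ring
  rw [hkey, map_div₀, hd, div_one]
  exact val_even_lt_one hv2 hev

/-- A `v`-integral rational number is congruent to `0` or to `1`. -/
lemma val_rat_lt_or_sub_one_lt (hv2 : v (2 : K) < 1) {r : ℚ} (h : v (r : K) ≤ 1) :
    v (r : K) < 1 ∨ v ((r : K) - 1) < 1 := by
  rcases h.lt_or_eq with h1 | h1
  · exact Or.inl h1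
  · exact Or.inr (val_rat_sub_one_lt hv2 h1)

/-- A nonzero rational number in the maximal ideal has valuation `v 2 ^ c`, `c ≥ 1`. -/
lemma val_rat_eq_pow (hv2 : v (2 : K) < 1) {r : ℚ} (h0 : (r : K) ≠ 0) (h : v (r : K) < 1) :
    ∃ c : ℕ, 1 ≤ c ∧ v (r : K) = v (2 : K) ^ c := by
  have hnum0 : r.num ≠ 0 := by
    intro hz
    apply h0
    rw [ratCast_eq_div, hz]
    simp
  obtain ⟨c, m, hm, hcm⟩ := int_eq_two_pow_mul_odd hnum0
  have hval : v (r : K) = v (2 : K) ^ c := by
    rw [val_rat_eq_val_num hv2 h.le, hcm, val_two_pow_mul_odd hv2 c hm]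
  refine ⟨c, ?_, hval⟩
  rcases Nat.eq_zero_or_pos c with hc | hc
  · rw [hval, hc, pow_zero] at h
    exact absurd h (lt_irrefl _)
  · exact hc

end Fermat.Agent.S13.H673
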