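import Fermat.Agent.S13.H673.T7Frey
import Fermat.Agent.S13.Skel
import Fermat.Agent.S54.FrobLift

/-!
# S13, piece T7 in the frozen interface shape of `Fermat.Agent.S13.Skel.result_of_parts`

A Galois-fixed point of `E[p](ℚ̄)` has rational coordinates (Galois descent), hence comes from a
rational point of order dividing `p`, which is zero by `frey_rational_torsion`.
-/

set_option autoImplicit false
set_option linter.unusedSectionVars false
set_option linter.unusedVariables false

namespace Fermat.Agent.S13.H673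

open WeierstrassCurve WeierstrassCurve.Affine WeierstrassCurve.Affine.Point

/-- Galois descent for points: a point of `W(ℚ̄)` fixed by `Gal(ℚ̄/ℚ)` is the image of a rational
point. -/
theorem exists_rational_of_fixed (W' : Affine ℚ)
    (x : (W'⁄(AlgebraicClosure ℚ)).Point)
    (hx : ∀ σ : (AlgebraicClosure ℚ) ≃ₐ[ℚ] (AlgebraicClosure ℚ), σ • x = x) :
    ∃ Q : (W'⁄ℚ).Point, Point.map (W' := W') (Algebra.ofId ℚ (AlgebraicClosure ℚ)) Q = x := by
  have := Fermat.Agent.S54.isGalois_algebraicClosure_rat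
  rcases x with _ | ⟨a, b, h⟩
  · exact ⟨0, _root_.map_zero _⟩
  · have hfix : ∀ σ : (AlgebraicClosure ℚ) ≃ₐ[ℚ] (AlgebraicClosure ℚ), σ a = a ∧ σ b = b := by
      intro σ
      have h1 := hx σ
      rw [algEquiv_smul_def, Point.map_some] at h1
      simp only [Point.some.injEq] at h1
      exact h1
    obtain ⟨r, hr⟩ := (InfiniteGalois.mem_range_algebraMap_iff_fixed (k := ℚ) a).mpr
      (fun σ => (hfix σ).1)
    obtain ⟨t, ht⟩ := (InfiniteGalois.mem_range_algebraMap_iff_fixed (k := ℚ) b).mpr
      (fun σ => (hfix σ).2)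
    have hinj : Function.Injective (Algebra.ofId ℚ (AlgebraicClosure ℚ)) :=
      (Algebra.ofId ℚ (AlgebraicClosure ℚ)).toRingHom.injective
    have hr' : (Algebra.ofId ℚ (AlgebraicClosure ℚ)) r = a := hr
    have ht' : (Algebra.ofId ℚ (AlgebraicClosure ℚ)) t = b := ht
    have h₀ : (W'⁄ℚ).Nonsingular r t := by
      rw [← W'.baseChange_nonsingular (f := Algebra.ofId ℚ (AlgebraicClosure ℚ)) hinj r t,
        hr', ht']
      exact h
    refine ⟨Point.some r t h₀, ?_⟩
    rw [Point.map_some]
    simp only [Point.some.injEq]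
    exact ⟨hr', ht'⟩

/-- **T7**, exactly the hypothesis `hT7` of `Skel.result_of_parts`: no nonzero Galois-fixed point
in `E[p]` of the Frey curve. -/
theorem T7 (P : FreyPackage) : ∀ x : Skel.Vp P, (∀ σ : Skel.GQ, σ • x = x) → x = 0 := by
  intro x hx
  have hx' : ∀ σ : (AlgebraicClosure ℚ) ≃ₐ[ℚ] (AlgebraicClosure ℚ),
      σ • (x : (P.freyCurve⁄(AlgebraicClosure ℚ)).Point) = x := fun σ =>
    congrArg Subtype.val (hx σ)
  obtain ⟨Q, hQ⟩ := exists_rational_of_fixed P.freyCurve x hx'
  have hpx : P.p • (x : (P.freyCurve⁄(AlgebraicClosure ℚ)).Point) = 0 := by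
    have := (Submodule.mem_torsionBy_iff _ _).mp x.2
    rwa [natCast_zsmul] at this
  have hpQ : P.p • Q = 0 := by
    apply Point.map_injective (W' := P.freyCurve) (Algebra.ofId ℚ (AlgebraicClosure ℚ))
    rw [map_nsmul, hQ, hpx, _root_.map_zero]
  have hQ0 : Q = 0 := frey_rational_torsion P Q hpQ
  apply Subtype.ext
  rw [← hQ, hQ0, _root_.map_zero]
  rfl

end Fermat.Agent.S13.H673
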