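import Fermat.Agent.S13.H673.RatTwo
import Fermat.Agent.S13.H845.NodeZero
import Fermat.Agent.S05.C1b
import Fermat.Agent.S05.SameRed

/-!
# S13, piece T7, abstract core: no rational point of order `p` near a node at `2`

`W` a Weierstrass curve over `ℚ`, `v` a valuation on `ℚ` with `v 2 < 1`, `W` with `v`-integral
coefficients and a node at the origin (`a₃ = a₆ = 0`, `v a₄ < 1`, `v b₂ = 1`), `v a₄ = v 2 ^ M`
with `p ∤ M`, `p ≥ 5` prime.  Then `W(ℚ)` has no point of order `p`.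
-/

set_option autoImplicit false
set_option linter.unusedSectionVars false
set_option linter.unusedVariables false

namespace Fermat.Agent.S13.H673

open WeierstrassCurve WeierstrassCurve.Affine
open Fermat.Agent.S05 Fermat.Agent.S13.H845

variable {Γ₀ : Type*} [LinearOrderedCommGroupWithZero Γ₀]

/-- the number-theoretic contradiction: `c p = 2 j M`, `0 < c < M`, `p ∤ M`, `p` an odd prime -/
lemma arith_false {p c M j : ℕ} (hp : p.Prime) (hp2 : p ≠ 2) (hpM : ¬ p ∣ M)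
    (hc : 1 ≤ c) (hcM : c < M) (h : c * p = M * (2 * j)) : False := by
  have h1 : p ∣ M * (2 * j) := ⟨c, by rw [← h, mul_comm]⟩
  have h2 : p ∣ 2 * j := (hp.dvd_mul.mp h1).resolve_left hpM
  have h3 : p ∣ j := by
    rcases hp.dvd_mul.mp h2 with h' | h'
    · exact absurd ((Nat.prime_dvd_prime_iff_eq hp Nat.prime_two).mp h') hp2
    · exact h'
  obtain ⟨j', rfl⟩ := h3
  have h4 : c = M * (2 * j') := by
    have : c * p = (M * (2 * j')) * p := by rw [h]; ring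
    exact Nat.eq_of_mul_eq_mul_right hp.pos this
  rcases Nat.eq_zero_or_pos j' with hj | hj
  · rw [hj] at h4; omega
  · have : M * 1 ≤ M * (2 * j') := Nat.mul_le_mul_left M (by omega)
    omega

lemma pow_lt_pow_imp {t : Γ₀} (ht0 : 0 < t) (ht1 : t < 1) {m n : ℕ} (h : t ^ m < t ^ n) :
    n < m := by
  by_contra hcon
  rw [not_lt] at hcon
  rcases hcon.lt_or_eq with h' | h'
  · exact absurd (pow_lt_pow_right_of_lt_one₀ ht0 ht1 h') (not_lt.mpr h.le)
  · rw [h'] at h; exact lt_irrefl _ h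

lemma pow_eq_pow_imp {t : Γ₀} (ht0 : 0 < t) (ht1 : t < 1) {m n : ℕ} (h : t ^ m = t ^ n) :
    m = n := by
  rcases Nat.lt_trichotomy m n with h' | h' | h'
  · exact absurd h (pow_lt_pow_right_of_lt_one₀ ht0 ht1 h').ne'
  · exact h'
  · exact absurd h (pow_lt_pow_right_of_lt_one₀ ht0 ht1 h').ne

lemma eq_zero_of_nsmul_of_coprime {G : Type*} [AddGroup G] {Q : G} {k p : ℕ}
    (hk : k • Q = 0) (hp : p • Q = 0) (hcop : Nat.Coprime k p) : Q = 0 := by
  have h1 : addOrderOf Q ∣ k := addOrderOf_dvd_of_nsmul_eq_zero hk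
  have h2 : addOrderOf Q ∣ p := addOrderOf_dvd_of_nsmul_eq_zero hp
  have h3 : addOrderOf Q ∣ 1 := by
    have := Nat.dvd_gcd h1 h2
    rwa [hcop] at this
  exact AddMonoid.addOrderOf_eq_one_iff.mp (Nat.dvd_one.mp h3)

section core

variable {W : Affine ℚ} {v : Valuation ℚ Γ₀}

/-- In a node at the origin the coefficient `a₁` is a unit. -/
lemma val_a₁_eq_one (hv2 : v (2 : ℚ) < 1) (hW : SameRed.IntegralCoeffs W v) (N : NodeZero W v) :
    v W.a₁ = 1 := by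
  have hb2 := N.hb2
  have h4 : v (4 * W.a₂) < 1 := by
    have : (4 : ℚ) * W.a₂ = 2 * (2 * W.a₂) := by ring
    rw [this, map_mul]
    have h2a : v (2 * W.a₂) ≤ 1 := by
      rw [map_mul]; exact mul_le_one' hv2.le hW.a₂
    exact (mul_le_of_le_one_right' h2a).trans_lt hv2
  have hsq : v (W.a₁ ^ 2) = 1 := by
    have e : W.a₁ ^ 2 = W.b₂ + -(4 * W.a₂) := by
      simp only [WeierstrassCurve.b₂]; ring
    rw [e, v.map_add_eq_of_lt_left (by rw [Valuation.map_neg, hb2]; exact h4), hb2]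
  rw [map_pow] at hsq
  exact (pow_eq_one_iff_of_nonneg zero_le (by norm_num)).mp hsq

variable (hv2 : v (2 : ℚ) < 1) (hW : SameRed.IntegralCoeffs W v) (N : NodeZero W v)
  {p : ℕ} (hp : p.Prime) (hp5 : 5 ≤ p) {M : ℕ} (hM : v W.a₄ = v (2 : ℚ) ^ M) (hpM : ¬ p ∣ M)

include hv2 hp hp5 in
lemma val_p_eq_one : v (p : ℚ) = 1 := by
  have hodd : Odd (p : ℤ) := by
    have := hp.odd_of_ne_two (by omega)
    exact_mod_cast this
  have := val_odd_eq_one (K := ℚ) hv2 hodd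
  simpa using this

include hv2 hW N hp hp5 hM hpM in
/-- Every affine rational point of order dividing `p` has `x`-coordinate a `v`-unit and
integral `y`-coordinate. -/
lemma val_x_eq_one_of_torsion {x y : ℚ} (h : W.Nonsingular x y)
    (hQ : p • Point.some x y h = 0) : v x = 1 ∧ v y ≤ 1 := by
  have hvp := val_p_eq_one hv2 hp hp5
  have hodd : Odd p := hp.odd_of_ne_two (by omega)
  obtain ⟨hx, hy⟩ := C1b.val_x_le_one_of_nsmul_eq_zero hW hvp h hQ
  refine ⟨?_, hy⟩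
  by_contra hne
  have hlt : v x < 1 := lt_of_le_of_ne hx hne
  obtain ⟨h4, j, hj⟩ := node_torsion_valuation hW N hodd hvp h hQ hlt
  have hx0 : x ≠ 0 := by
    rintro rfl
    rw [map_zero] at h4
    exact not_lt_zero h4
  have ht0 : 0 < v (2 : ℚ) := (Valuation.pos_iff v).mpr (by norm_num)
  obtain ⟨c, hc1, hc⟩ := val_rat_eq_pow (K := ℚ) (v := v) (r := x) hv2
    (by simpa using hx0) (by simpa using hlt)
  have hc' : v x = v (2 : ℚ) ^ c := by simpa using hc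
  rw [hc', hM] at h4
  have hcM : c < M := pow_lt_pow_imp ht0 hv2 h4
  rw [hc', hM, ← pow_mul, ← pow_mul] at hj
  have hcp : c * p = M * (2 * j) := pow_eq_pow_imp ht0 hv2 hj
  exact arith_false hp (by omega) hpM hc1 hcM hcp

include hv2 hW N hp hp5 hM hpM in
/-- Two affine rational `p`-torsion points with `y`-coordinates in the same class mod `2` differ
by a point in the kernel of reduction. -/
lemma inKer_sub_of_same_class {x₁ y₁ x₂ y₂ : ℚ} (h₁ : W.Nonsingular x₁ y₁)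
    (h₂ : W.Nonsingular x₂ y₂) (hQ₁ : p • Point.some x₁ y₁ h₁ = 0)
    (hQ₂ : p • Point.some x₂ y₂ h₂ = 0) (hy : v (y₁ - y₂) < 1) :
    SameRed.InKer W v (Point.some x₁ y₁ h₁ - Point.some x₂ y₂ h₂) := by
  obtain ⟨hx₁, hy₁⟩ := val_x_eq_one_of_torsion hv2 hW N hp hp5 hM hpM h₁ hQ₁
  obtain ⟨hx₂, hy₂⟩ := val_x_eq_one_of_torsion hv2 hW N hp hp5 hM hpM h₂ hQ₂
  have e₁ : v (x₁ - 1) < 1 := by
    have := val_rat_sub_one_lt (K := ℚ) (v := v) (r := x₁) hv2 (by simpa using hx₁)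
    simpa using this
  have e₂ : v (x₂ - 1) < 1 := by
    have := val_rat_sub_one_lt (K := ℚ) (v := v) (r := x₂) hv2 (by simpa using hx₂)
    simpa using this
  have hx : v (x₁ - x₂) < 1 := by
    have : x₁ - x₂ = (x₁ - 1) - (x₂ - 1) := by ring
    rw [this]
    exact (v.map_sub _ _).trans_lt (max_lt e₁ e₂)
  refine SameRed.inKer_sub_of_same_reduction hW h₁ h₂ hx₁.le hy₁ hx₂.le hy₂ hx hy (Or.inr ?_)
  have ha1 := val_a₁_eq_one hv2 hW N
  have h2y : v (2 * y₁) < 1 := by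
    rw [map_mul]; exact (mul_le_of_le_one_right' hy₁).trans_lt hv2
  have hax : v (W.a₁ * x₁) = 1 := by rw [map_mul, ha1, hx₁, one_mul]
  have e : 2 * y₁ + W.a₁ * x₁ + W.a₃ = W.a₁ * x₁ + 2 * y₁ := by rw [N.ha3]; ring
  rw [e, v.map_add_eq_of_lt_left (by rw [hax]; exact h2y), hax]

include hv2 hW N hp hp5 hM hpM in
/-- **T7, abstract core.** -/
theorem eq_zero_of_nsmul_eq_zero (Q : W.Point) (hQ : p • Q = 0) : Q = 0 := by
  by_contra hQ0
  have hcop2 : Nat.Coprime 2 p := by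
    rw [Nat.coprime_comm]
    exact (Nat.coprime_primes hp Nat.prime_two).mpr (by omega)
  have hcop3 : Nat.Coprime 3 p := by
    rw [Nat.coprime_comm]
    exact (Nat.coprime_primes hp Nat.prime_three).mpr (by omega)
  have h2Q0 : (2 : ℕ) • Q ≠ 0 := fun h => hQ0 (eq_zero_of_nsmul_of_coprime h hQ hcop2)
  have h3Q0 : (3 : ℕ) • Q ≠ 0 := fun h => hQ0 (eq_zero_of_nsmul_of_coprime h hQ hcop3)
  have hp2 : p • ((2 : ℕ) • Q) = 0 := by rw [smul_comm, hQ, nsmul_zero]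
  have hp3 : p • ((3 : ℕ) • Q) = 0 := by rw [smul_comm, hQ, nsmul_zero]
  have e21 : (2 : ℕ) • Q - Q = Q := by
    rw [two_nsmul]; abel
  have e31 : (3 : ℕ) • Q - Q = (2 : ℕ) • Q := by
    rw [show (3 : ℕ) = 2 + 1 from rfl, add_nsmul, one_nsmul]; abel
  have e32 : (3 : ℕ) • Q - (2 : ℕ) • Q = Q := by
    rw [show (3 : ℕ) = 2 + 1 from rfl, add_nsmul, one_nsmul]; abel
  -- coordinates
  obtain ⟨x₁, y₁, h₁, rfl⟩ : ∃ x y, ∃ h : W.Nonsingular x y, Q = Point.some x y h := by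
    rcases Q with _ | ⟨x, y, h⟩
    · exact absurd rfl hQ0
    · exact ⟨x, y, h, rfl⟩
  obtain ⟨x₂, y₂, h₂, hQ₂⟩ : ∃ x y, ∃ h : W.Nonsingular x y,
      (2 : ℕ) • Point.some x₁ y₁ h₁ = Point.some x y h := by
    rcases hc : (2 : ℕ) • Point.some x₁ y₁ h₁ with _ | ⟨x, y, h⟩
    · exact absurd hc h2Q0
    · exact ⟨x, y, h, rfl⟩
  obtain ⟨x₃, y₃, h₃, hQ₃⟩ : ∃ x y, ∃ h : W.Nonsingular x y,
      (3 : ℕ) • Point.some x₁ y₁ h₁ = Point.some x y h := by
    rcases hc : (3 : ℕ) • Point.some x₁ y₁ h₁ with _ | ⟨x, y, h⟩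
    · exact absurd hc h3Q0
    · exact ⟨x, y, h, rfl⟩
  rw [hQ₂] at hp2 e21 e31 e32
  rw [hQ₃] at hp3 e31 e32
  obtain ⟨hx₁, hy₁⟩ := val_x_eq_one_of_torsion hv2 hW N hp hp5 hM hpM h₁ hQ
  obtain ⟨hx₂, hy₂⟩ := val_x_eq_one_of_torsion hv2 hW N hp hp5 hM hpM h₂ hp2
  obtain ⟨hx₃, hy₃⟩ := val_x_eq_one_of_torsion hv2 hW N hp hp5 hM hpM h₃ hp3
  have c₁ := val_rat_lt_or_sub_one_lt (K := ℚ) (v := v) (r := y₁) hv2 (by simpa using hy₁)
  have c₂ := val_rat_lt_or_sub_one_lt (K := ℚ) (v := v) (r := y₂) hv2 (by simpa using hy₂)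
  have c₃ := val_rat_lt_or_sub_one_lt (K := ℚ) (v := v) (r := y₃) hv2 (by simpa using hy₃)
  simp only [Rat.cast_id] at c₁ c₂ c₃
  have sub00 : ∀ {a b : ℚ}, v a < 1 → v b < 1 → v (a - b) < 1 := fun ha hb =>
    (v.map_sub _ _).trans_lt (max_lt ha hb)
  have sub11 : ∀ {a b : ℚ}, v (a - 1) < 1 → v (b - 1) < 1 → v (a - b) < 1 := by
    intro a b ha hb
    have : a - b = (a - 1) - (b - 1) := by ring
    rw [this]
    exact (v.map_sub _ _).trans_lt (max_lt ha hb)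
  -- the three possible coincidences
  have k21 : ¬ v (y₂ - y₁) < 1 := by
    intro hy
    have := inKer_sub_of_same_class hv2 hW N hp hp5 hM hpM h₂ h₁ hp2 hQ hy
    rw [e21, SameRed.inKer_some] at this
    exact absurd this (not_lt.mpr hx₁.le)
  have k31 : ¬ v (y₃ - y₁) < 1 := by
    intro hy
    have := inKer_sub_of_same_class hv2 hW N hp hp5 hM hpM h₃ h₁ hp3 hQ hy
    rw [e31, SameRed.inKer_some] at this
    exact absurd this (not_lt.mpr hx₂.le)
  have k32 : ¬ v (y₃ - y₂) < 1 := by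
    intro hy
    have := inKer_sub_of_same_class hv2 hW N hp hp5 hM hpM h₃ h₂ hp3 hp2 hy
    rw [e32, SameRed.inKer_some] at this
    exact absurd this (not_lt.mpr hx₁.le)
  rcases c₁ with a₁ | a₁ <;> rcases c₂ with a₂ | a₂ <;> rcases c₃ with a₃ | a₃
  · exact k21 (sub00 a₂ a₁)
  · exact k21 (sub00 a₂ a₁)
  · exact k31 (sub00 a₃ a₁)
  · exact k32 (sub11 a₃ a₂)
  · exact k32 (sub00 a₃ a₂)
  · exact k31 (sub11 a₃ a₁)
  · exact k21 (sub11 a₂ a₁)
  · exact k21 (sub11 a₂ a₁)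

end core

end Fermat.Agent.S13.H673
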