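import Fermat.Agent.S13.H673.T7Core
import Fermat.Prelude.Def_FLTPrelim_FreyPackage
import Fermat.Prelude.Def_FLTPrelim_GaloisRep
import Mathlib.NumberTheory.Padics.PadicNumbers

/-!
# S13, piece T7 over `ℚ`: the Frey curve has no rational point of order `p`

`2`-adic argument: the Frey curve `y² + xy = x³ + a₂ x² + a₄ x` has integral coefficients, a node
at the origin modulo `2`, and `v₂(a₄) = p · v₂(b) - 4` is prime to `p`.
-/

set_option autoImplicit false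
set_option linter.unusedSectionVars false
set_option linter.unusedVariables false

namespace Fermat.Agent.S13.H673

open WeierstrassCurve WeierstrassCurve.Affine
open Fermat.Agent.S05 Fermat.Agent.S13.H845

variable (P : FreyPackage)

lemma frey_b_even : Even P.b := by
  have h : (2 : ℤ) ∣ P.b := (ZMod.intCast_zmod_eq_zero_iff_dvd P.b 2).1 P.hb2
  exact even_iff_two_dvd.mpr h

lemma frey_a_odd : Odd P.a := by
  have h : ((P.a - 3 : ℤ) : ZMod 4) = 0 := by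
    push_cast
    rw [P.ha4]
    decide
  have h4 : (4 : ℤ) ∣ P.a - 3 := (ZMod.intCast_zmod_eq_zero_iff_dvd _ 4).1 h
  obtain ⟨k, hk⟩ := h4
  exact ⟨2 * k + 1, by linarith⟩

lemma frey_four_dvd' : (4 : ℤ) ∣ P.b ^ P.p - 1 - P.a ^ P.p := by
  have hp5 := P.hp5
  obtain ⟨k, hk⟩ := P.hp_odd
  have hb : (2 : ℤ) ∣ P.b := (ZMod.intCast_zmod_eq_zero_iff_dvd P.b 2).1 P.hb2
  have hb4 : (4 : ℤ) ∣ P.b ^ P.p := by
    have h2 : (2 : ℤ) ^ 2 ∣ P.b ^ 2 := pow_dvd_pow_of_dvd hb 2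
    have h3 : P.b ^ 2 ∣ P.b ^ P.p := pow_dvd_pow _ (by omega)
    exact (by norm_num : (4 : ℤ) = 2 ^ 2) ▸ h2.trans h3
  have ha : ((P.a ^ P.p : ℤ) : ZMod 4) = 3 := by
    push_cast
    rw [P.ha4, hk, pow_succ, pow_mul]
    have : (3 : ZMod 4) ^ 2 = 1 := by decide
    rw [this, one_pow, one_mul]
  have hb0 : ((P.b ^ P.p : ℤ) : ZMod 4) = 0 := (ZMod.intCast_zmod_eq_zero_iff_dvd _ 4).2 hb4
  have hgoal : ((P.b ^ P.p - 1 - P.a ^ P.p : ℤ) : ZMod 4) = 0 := by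
    rw [Int.cast_sub, Int.cast_sub, hb0, ha]
    decide
  exact (ZMod.intCast_zmod_eq_zero_iff_dvd _ 4).1 hgoal

/-- `a₂` of the Frey curve is an integer. -/
lemma frey_a₂_eq : ∃ m : ℤ, P.freyCurve.a₂ = (m : ℚ) := by
  obtain ⟨m, hm⟩ := frey_four_dvd' P
  refine ⟨m, ?_⟩
  have hq : ((P.b : ℚ) ^ P.p - 1 - (P.a : ℚ) ^ P.p) = 4 * (m : ℚ) := by
    exact_mod_cast congrArg (Int.cast : ℤ → ℚ) hm
  simp only [FreyPackage.freyCurve]
  rw [hq]
  field_simp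

/-- `a₄` of the Frey curve is `2 ^ M` times an odd integer, with `M ≥ 1` prime to `p`. -/
lemma frey_a₄_eq : ∃ (M : ℕ) (u : ℤ), 1 ≤ M ∧ ¬ P.p ∣ M ∧ Odd u ∧
    P.freyCurve.a₄ = ((2 ^ M * u : ℤ) : ℚ) := by
  have hp5 := P.hp5
  obtain ⟨s, b', hb', hb⟩ := int_eq_two_pow_mul_odd P.hb0
  have hs : 1 ≤ s := by
    rcases Nat.eq_zero_or_pos s with h0 | h0
    · exfalso
      rw [h0, pow_zero, one_mul] at hb
      have := frey_b_even P
      rw [hb] at this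
      exact (Int.not_even_iff_odd.mpr hb') this
    · exact h0
  have hsp : 5 ≤ s * P.p := by nlinarith
  refine ⟨s * P.p - 4, -(P.a ^ P.p * b' ^ P.p), by omega, ?_, ?_, ?_⟩
  · intro hdvd
    have h1 : P.p ∣ s * P.p := Dvd.intro_left s rfl
    have h2 : P.p ∣ s * P.p - (s * P.p - 4) := Nat.dvd_sub h1 hdvd
    have h3 : s * P.p - (s * P.p - 4) = 4 := by omega
    rw [h3] at h2
    have := Nat.le_of_dvd (by norm_num) h2
    omega
  · exact Odd.neg (((frey_a_odd P).pow).mul (hb'.pow))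
  · have hpow : (P.b : ℚ) ^ P.p = 16 * (2 : ℚ) ^ (s * P.p - 4) * (b' : ℚ) ^ P.p := by
      have h16 : (16 : ℚ) * (2 : ℚ) ^ (s * P.p - 4) = (2 : ℚ) ^ (s * P.p) := by
        have : s * P.p = 4 + (s * P.p - 4) := by omega
        conv_rhs => rw [this, pow_add]
        norm_num
      rw [h16, hb]
      push_cast
      rw [mul_pow, ← pow_mul]
    simp only [FreyPackage.freyCurve]
    rw [hpow]
    push_cast
    field_simp

section val

variable {Γ₀ : Type*} [LinearOrderedCommGroupWithZero Γ₀] {v : Valuation ℚ Γ₀}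

lemma frey_Q_a₁ : (P.freyCurve⁄ℚ).a₁ = 1 := by
  simp [WeierstrassCurve.baseChange, FreyPackage.freyCurve]

lemma frey_Q_a₂ : (P.freyCurve⁄ℚ).a₂ = P.freyCurve.a₂ := by
  simp [WeierstrassCurve.baseChange]

lemma frey_Q_a₃ : (P.freyCurve⁄ℚ).a₃ = 0 := by
  simp [WeierstrassCurve.baseChange, FreyPackage.freyCurve]

lemma frey_Q_a₄ : (P.freyCurve⁄ℚ).a₄ = P.freyCurve.a₄ := by
  simp [WeierstrassCurve.baseChange]

lemma frey_Q_a₆ : (P.freyCurve⁄ℚ).a₆ = 0 := by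
  simp [WeierstrassCurve.baseChange, FreyPackage.freyCurve]

lemma frey_Q_integral (v : Valuation ℚ Γ₀) : SameRed.IntegralCoeffs (P.freyCurve⁄ℚ) v := by
  obtain ⟨m, hm⟩ := frey_a₂_eq P
  obtain ⟨M, u, -, -, -, hu⟩ := frey_a₄_eq P
  refine ⟨?_, ?_, ?_, ?_, ?_⟩
  · rw [frey_Q_a₁, map_one]
  · rw [frey_Q_a₂, hm]; exact val_intCast_le_one' v m
  · rw [frey_Q_a₃, map_zero]; exact zero_le_one
  · rw [frey_Q_a₄, hu]; exact val_intCast_le_one' v _
  · rw [frey_Q_a₆, map_zero]; exact zero_le_one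

lemma frey_Q_val_a₄ (hv2 : v (2 : ℚ) < 1) : ∃ M : ℕ, 1 ≤ M ∧ ¬ P.p ∣ M ∧
    (P.freyCurve⁄ℚ).a₄ ≠ 0 ∧ v (P.freyCurve⁄ℚ).a₄ = v (2 : ℚ) ^ M := by
  obtain ⟨M, u, hM1, hpM, hu, ha⟩ := frey_a₄_eq P
  refine ⟨M, hM1, hpM, ?_, ?_⟩
  · rw [frey_Q_a₄, ha]
    have hu0 : u ≠ 0 := by
      rintro rfl
      exact (Int.not_even_iff_odd.mpr hu) (by decide)
    have : (2 ^ M * u : ℤ) ≠ 0 := mul_ne_zero (pow_ne_zero _ (by norm_num)) hu0
    exact_mod_cast this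
  · rw [frey_Q_a₄, ha]
    exact val_two_pow_mul_odd hv2 M hu

lemma frey_Q_nodeZero (hv2 : v (2 : ℚ) < 1) : NodeZero (P.freyCurve⁄ℚ) v := by
  obtain ⟨M, hM1, -, ha0, hM⟩ := frey_Q_val_a₄ P hv2
  obtain ⟨m, hm⟩ := frey_a₂_eq P
  refine ⟨by norm_num, frey_Q_a₃ P, frey_Q_a₆ P, ha0, ?_, ?_⟩
  · rw [hM]
    exact pow_lt_one₀ zero_le hv2 (by omega)
  · have e : (P.freyCurve⁄ℚ).b₂ = ((2 * (2 * m) + 1 : ℤ) : ℚ) := by
      simp only [WeierstrassCurve.b₂, frey_Q_a₁, frey_Q_a₂, hm]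
      push_cast
      ring
    rw [e]
    exact val_odd_eq_one hv2 ⟨2 * m, rfl⟩

/-- T7 over `ℚ` for any valuation on `ℚ` with `v 2 < 1`. -/
theorem frey_rational_torsion_of_val (hv2 : v (2 : ℚ) < 1) (Q : (P.freyCurve⁄ℚ).Point)
    (hQ : P.p • Q = 0) : Q = 0 := by
  obtain ⟨M, -, hpM, -, hM⟩ := frey_Q_val_a₄ P hv2
  exact eq_zero_of_nsmul_eq_zero hv2 (frey_Q_integral P v) (frey_Q_nodeZero P hv2) P.pp P.hp5
    hM hpM Q hQ

end val

/-- **T7 over `ℚ`**: the Frey curve has no nonzero rational point killed by `p`. -/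
theorem frey_rational_torsion (Q : (P.freyCurve⁄ℚ).Point) (hQ : P.p • Q = 0) : Q = 0 := by
  have : Fact (Nat.Prime 2) := ⟨Nat.prime_two⟩
  have hv2 : Rat.padicValuation 2 (2 : ℚ) < 1 := by
    have h := Rat.padicValuation_self 2
    have h' : Rat.padicValuation 2 (2 : ℚ) = WithZero.exp (-1) := by exact_mod_cast h
    rw [h', ← WithZero.exp_zero, WithZero.exp_lt_exp]
    norm_num
  exact frey_rational_torsion_of_val P hv2 Q hQ

end Fermat.Agent.S13.H673
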